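/-
T1A (S19) brick G1 MODEL-COH (helper30), file 1: basic consequences of
`RED.CORE.CoreIface24.TwoChartModel` for the coherent cohomology of the two-chart model.

* the base `R` is a domain, a PID (a DVR with uniformiser `π`), `R → F` is injective,
  `Ov ∩ K = R`, `π Ov ∩ R = π R`;
* (a) the overlap `B01 := B0 ⊔ B1` is `B0[1/t] = B1[t]`, it lies in `Ov` and is `π`-saturated
  there; every subalgebra of `F` is flat over `R`;
* (b) `H⁰`: `B0 ∩ B1 = R` if `K` is algebraically closed in `F`.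
-/
import Mathlib
import Fermat.Agent.RED.CORE.CoreIface24
import Fermat.Agent.RED.CORE.Constants18

set_option autoImplicit false
set_option linter.unusedSectionVars false
set_option linter.style.haveILetI false

namespace Fermat.Agent.T1.ModelCoh30

open Polynomial Fermat.Agent.RED.CORE.CoreIface24

variable {R K F : Type*} [CommRing R] [Field K] [Field F] [Algebra R K] [Algebra K F]
  [Algebra R F] [IsScalarTower R K F]
variable {π : R} {t : F} {B0 B1 : Subalgebra R F} {Ov : ValuationSubring F}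

/-! ### The base ring -/

theorem isDomain (M : TwoChartModel R K F π t B0 B1 Ov) : IsDomain R :=
  haveI := M.fracR
  Function.Injective.isDomain (algebraMap R K) (IsFractionRing.injective R K)

theorem algebraMap_injective (M : TwoChartModel R K F π t B0 B1 Ov) :
    Function.Injective (algebraMap R F) := by
  haveI := M.fracR
  rw [IsScalarTower.algebraMap_eq R K F]
  exact (algebraMap K F).injective.comp (IsFractionRing.injective R K)

theorem algebraMap_mem_Ov (M : TwoChartModel R K F π t B0 B1 Ov) (r : R) :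
    algebraMap R F r ∈ Ov :=
  M.le_Ov0 _ (B0.algebraMap_mem r)

theorem pi_ne_zero (M : TwoChartModel R K F π t B0 B1 Ov) : π ≠ 0 := by
  rintro rfl
  exact M.pi_ne (map_zero _)

theorem pi_not_isUnit (M : TwoChartModel R K F π t B0 B1 Ov) : ¬ IsUnit π := by
  rintro ⟨u, rfl⟩
  apply M.pi_nonunit
  have h : (algebraMap R F (u : R))⁻¹ = algebraMap R F ((u⁻¹ : Rˣ) : R) := by
    apply inv_eq_of_mul_eq_one_right
    rw [← map_mul, Units.mul_inv, map_one]
  rw [h]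
  exact algebraMap_mem_Ov M _

/-- the inverse of the image of a unit of `R` lies in `Ov`. -/
theorem inv_unit_mem_Ov (M : TwoChartModel R K F π t B0 B1 Ov) (u : Rˣ) :
    (algebraMap R F (u : R))⁻¹ ∈ Ov := by
  have h : (algebraMap R F (u : R))⁻¹ = algebraMap R F ((u⁻¹ : Rˣ) : R) := by
    apply inv_eq_of_mul_eq_one_right
    rw [← map_mul, Units.mul_inv, map_one]
  rw [h]
  exact algebraMap_mem_Ov M _

/-- `π` does not divide a unit. -/
theorem not_pi_mul_mem_Ov_eq_one (M : TwoChartModel R K F π t B0 B1 Ov) {c : F} (hc : c ∈ Ov) :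
    algebraMap R F π * c ≠ 1 := by
  intro h
  apply M.pi_nonunit
  rw [inv_eq_of_mul_eq_one_right h]
  exact hc

theorem isPrincipalIdealRing (M : TwoChartModel R K F π t B0 B1 Ov) :
    IsPrincipalIdealRing R := by
  classical
  haveI := isDomain M
  refine ⟨fun I => ?_⟩
  by_cases hI : I = ⊥
  · subst hI
    exact ⟨⟨0, by simp⟩⟩
  · have hex : ∃ k : ℕ, π ^ k ∈ I := by
      obtain ⟨r, hrI, hr0⟩ := Submodule.exists_mem_ne_zero_of_ne_bot hI
      obtain ⟨k, v, hv⟩ := M.dvrR r hr0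
      refine ⟨k, ?_⟩
      have : π ^ k = r * ((v⁻¹ : Rˣ) : R) := by
        rw [hv, mul_assoc, Units.mul_inv, mul_one]
      rw [this]
      exact I.mul_mem_right _ hrI
    refine ⟨⟨π ^ Nat.find hex, ?_⟩⟩
    apply le_antisymm
    · intro s hs
      by_cases hs0 : s = 0
      · subst hs0
        exact Submodule.zero_mem _
      obtain ⟨l, v, hv⟩ := M.dvrR s hs0
      have hl : π ^ l ∈ I := by
        have : π ^ l = s * ((v⁻¹ : Rˣ) : R) := by
          rw [hv, mul_assoc, Units.mul_inv, mul_one]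
        rw [this]
        exact I.mul_mem_right _ hs
      have hle : Nat.find hex ≤ l := Nat.find_min' hex hl
      obtain ⟨d, rfl⟩ := Nat.exists_eq_add_of_le hle
      rw [hv, pow_add, mul_assoc]
      exact Ideal.mul_mem_right _ _ (Submodule.mem_span_singleton_self _)
    · rw [Submodule.span_singleton_le_iff_mem]
      exact Nat.find_spec hex

theorem pi_irreducible (M : TwoChartModel R K F π t B0 B1 Ov) : Irreducible π := by
  haveI := isDomain M
  have hπ0 := pi_ne_zero M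
  refine ⟨pi_not_isUnit M, fun a b hab => ?_⟩
  have ha0 : a ≠ 0 := by
    rintro rfl
    exact hπ0 (by rw [hab, zero_mul])
  have hb0 : b ≠ 0 := by
    rintro rfl
    exact hπ0 (by rw [hab, mul_zero])
  obtain ⟨k, u, rfl⟩ := M.dvrR a ha0
  obtain ⟨l, v, rfl⟩ := M.dvrR b hb0
  rcases Nat.eq_zero_or_pos k with hk | hk
  · left
    subst hk
    simp
  rcases Nat.eq_zero_or_pos l with hl | hl
  · right
    subst hl
    simp
  exfalso
  obtain ⟨k', rfl⟩ : ∃ k', k = k' + 1 := ⟨k - 1, by omega⟩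
  obtain ⟨l', rfl⟩ : ∃ l', l = l' + 1 := ⟨l - 1, by omega⟩
  apply pi_not_isUnit M
  have h1 : π * 1 = π * (π * (π ^ k' * π ^ l' * (u * v))) := by
    rw [mul_one]
    conv_lhs => rw [hab]
    ring
  have h2 := mul_left_cancel₀ hπ0 h1
  exact IsUnit.of_mul_eq_one _ h2.symm

/-- `Ov ∩ K = R`. -/
theorem exists_of_mem_Ov (M : TwoChartModel R K F π t B0 B1 Ov) (c : K)
    (hc : algebraMap K F c ∈ Ov) : ∃ r : R, algebraMap R K r = c := by
  haveI := M.fracR
  haveI := isDomain M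
  have hinjK : Function.Injective (algebraMap R K) := IsFractionRing.injective R K
  obtain ⟨a, b, hb, rfl⟩ := IsFractionRing.div_surjective (A := R) c
  have hb0 : b ≠ 0 := nonZeroDivisors.ne_zero hb
  by_cases ha0 : a = 0
  · exact ⟨0, by rw [ha0, map_zero, zero_div]⟩
  obtain ⟨k, u, rfl⟩ := M.dvrR a ha0
  obtain ⟨l, v, rfl⟩ := M.dvrR b hb0
  have hπK : algebraMap R K π ≠ 0 := fun h => pi_ne_zero M (hinjK (by rw [h, map_zero]))
  have hvK : algebraMap R K (v : R) ≠ 0 := fun h => v.ne_zero (hinjK (by rw [h, map_zero]))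
  have huK : algebraMap R K (u : R) ≠ 0 := fun h => u.ne_zero (hinjK (by rw [h, map_zero]))
  rcases le_or_gt l k with hlk | hlk
  · obtain ⟨d, rfl⟩ := Nat.exists_eq_add_of_le hlk
    refine ⟨π ^ d * u * ((v⁻¹ : Rˣ) : R), ?_⟩
    rw [eq_div_iff ((map_ne_zero_iff _ hinjK).2
      (mul_ne_zero (pow_ne_zero _ (pi_ne_zero M)) v.ne_zero)), ← map_mul]
    congr 1
    have : ((v⁻¹ : Rˣ) : R) * (v : R) = 1 := Units.inv_mul v
    calc π ^ d * ↑u * ↑v⁻¹ * (π ^ l * ↑v) = π ^ l * π ^ d * ↑u * (↑v⁻¹ * ↑v) := by ring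
      _ = π ^ (l + d) * ↑u := by rw [this, mul_one, pow_add]
  · exfalso
    obtain ⟨d, rfl⟩ : ∃ d, l = k + 1 + d := ⟨l - (k + 1), by omega⟩
    -- `c * π^(d+1) = u / v`
    set c : K := algebraMap R K (π ^ k * (u : R)) / algebraMap R K (π ^ (k + 1 + d) * (v : R))
      with hcdef
    have hcK : c * algebraMap R K (π * (π ^ d * ((v : R) * ((u⁻¹ : Rˣ) : R)))) = 1 := by
      rw [hcdef, div_mul_eq_mul_div, div_eq_one_iff_eq ((map_ne_zero_iff _ hinjK).2
        (mul_ne_zero (pow_ne_zero _ (pi_ne_zero M)) v.ne_zero)), ← map_mul]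
      congr 1
      have : (u : R) * ((u⁻¹ : Rˣ) : R) = 1 := Units.mul_inv u
      calc π ^ k * ↑u * (π * (π ^ d * (↑v * ↑u⁻¹)))
          = π ^ k * π * π ^ d * ↑v * (↑u * ↑u⁻¹) := by ring
        _ = π ^ (k + 1 + d) * ↑v := by rw [this, mul_one, pow_add, pow_succ]
    have hcF : algebraMap R F π * (algebraMap K F c *
        algebraMap R F (π ^ d * ((v : R) * ((u⁻¹ : Rˣ) : R)))) = 1 := by
      have := congrArg (algebraMap K F) hcK
      rw [map_mul, map_one, ← IsScalarTower.algebraMap_apply R K F, map_mul] at this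
      rw [← this]
      ring
    exact not_pi_mul_mem_Ov_eq_one M (Ov.mul_mem _ _ hc (algebraMap_mem_Ov M _)) hcF

/-- `π Ov ∩ R = π R`. -/
theorem dvd_of_mem_pi_Ov (M : TwoChartModel R K F π t B0 B1 Ov) (r : R)
    (h : ∃ c ∈ Ov, algebraMap R F r = algebraMap R F π * c) : π ∣ r := by
  haveI := isDomain M
  obtain ⟨c, hc, hrc⟩ := h
  by_cases hr0 : r = 0
  · subst hr0
    exact dvd_zero _
  obtain ⟨k, u, rfl⟩ := M.dvrR r hr0
  rcases Nat.eq_zero_or_pos k with hk | hk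
  · exfalso
    subst hk
    rw [pow_zero, one_mul] at hrc
    have hu0 : algebraMap R F (u : R) ≠ 0 := fun h0 =>
      u.ne_zero (algebraMap_injective M (by rw [h0, map_zero]))
    refine not_pi_mul_mem_Ov_eq_one M (Ov.mul_mem _ _ hc (inv_unit_mem_Ov M u)) ?_
    rw [← mul_assoc, ← hrc, mul_inv_cancel₀ hu0]
  · obtain ⟨k', rfl⟩ : ∃ k', k = k' + 1 := ⟨k - 1, by omega⟩
    exact ⟨π ^ k' * u, by rw [pow_succ]; ring⟩

/-! ### (a) the overlap `B01 = B0 ⊔ B1` -/

theorem pow_mul_mem0 (M : TwoChartModel R K F π t B0 B1 Ov) {x : F} (hx : x ∈ B0) (k : ℕ) :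
    t ^ k * x ∈ B0 :=
  B0.mul_mem (B0.pow_mem M.t_mem k) hx

theorem pow_mul_mem1 (M : TwoChartModel R K F π t B0 B1 Ov) {x : F} (hx : x ∈ B1) (k : ℕ) :
    t⁻¹ ^ k * x ∈ B1 :=
  B1.mul_mem (B1.pow_mem M.tinv_mem k) hx

theorem tinv_pow_mul_t_pow (M : TwoChartModel R K F π t B0 B1 Ov) (k : ℕ) :
    t⁻¹ ^ k * t ^ k = 1 := by
  rw [← mul_pow, inv_mul_cancel₀ M.t_ne, one_pow]

/-- `B0[1/t]` as a subalgebra of `F`. -/
def awaySub (t : F) (B : Subalgebra R F) (ht : t ∈ B) : Subalgebra R F where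
  carrier := {x | ∃ k : ℕ, t ^ k * x ∈ B}
  mul_mem' := by
    rintro x y ⟨k, hk⟩ ⟨l, hl⟩
    refine ⟨k + l, ?_⟩
    have : t ^ (k + l) * (x * y) = (t ^ k * x) * (t ^ l * y) := by rw [pow_add]; ring
    rw [this]
    exact B.mul_mem hk hl
  add_mem' := by
    rintro x y ⟨k, hk⟩ ⟨l, hl⟩
    refine ⟨k + l, ?_⟩
    have : t ^ (k + l) * (x + y) = t ^ l * (t ^ k * x) + t ^ k * (t ^ l * y) := by
      rw [pow_add]; ring
    rw [this]
    exact B.add_mem (B.mul_mem (B.pow_mem ht l) hk) (B.mul_mem (B.pow_mem ht k) hl)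
  algebraMap_mem' := fun r => ⟨0, by simp⟩

theorem mem_awaySub {t : F} {B : Subalgebra R F} {ht : t ∈ B} {x : F} :
    x ∈ awaySub t B ht ↔ ∃ k : ℕ, t ^ k * x ∈ B := Iff.rfl

theorem mem_sup_iff0 (M : TwoChartModel R K F π t B0 B1 Ov) {x : F} :
    x ∈ B0 ⊔ B1 ↔ ∃ k : ℕ, t ^ k * x ∈ B0 := by
  constructor
  · intro hx
    have hle : B0 ⊔ B1 ≤ awaySub t B0 M.t_mem := by
      apply sup_le
      · intro y hy
        exact ⟨0, by simpa using hy⟩
      · intro y hy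
        exact M.ov0 y hy
    exact hle hx
  · rintro ⟨k, hk⟩
    have hx : x = t⁻¹ ^ k * (t ^ k * x) := by
      rw [← mul_assoc, tinv_pow_mul_t_pow M, one_mul]
    rw [hx]
    exact (B0 ⊔ B1).mul_mem
      ((B0 ⊔ B1).pow_mem ((le_sup_right : B1 ≤ B0 ⊔ B1) M.tinv_mem) k)
      ((le_sup_left : B0 ≤ B0 ⊔ B1) hk)

theorem mem_sup_iff1 (M : TwoChartModel R K F π t B0 B1 Ov) {x : F} :
    x ∈ B0 ⊔ B1 ↔ ∃ k : ℕ, t⁻¹ ^ k * x ∈ B1 := by
  constructor
  · intro hx
    have hle : B0 ⊔ B1 ≤ awaySub t⁻¹ B1 M.tinv_mem := by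
      apply sup_le
      · intro y hy
        exact M.ov1 y hy
      · intro y hy
        exact ⟨0, by simpa using hy⟩
    exact hle hx
  · rintro ⟨k, hk⟩
    have hx : x = t ^ k * (t⁻¹ ^ k * x) := by
      rw [← mul_assoc, mul_comm (t ^ k), tinv_pow_mul_t_pow M, one_mul]
    rw [hx]
    exact (B0 ⊔ B1).mul_mem
      ((B0 ⊔ B1).pow_mem ((le_sup_left : B0 ≤ B0 ⊔ B1) M.t_mem) k)
      ((le_sup_right : B1 ≤ B0 ⊔ B1) hk)

/-- `Ov` as a subalgebra of `F` over `R`. -/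
def ovSub (M : TwoChartModel R K F π t B0 B1 Ov) : Subalgebra R F :=
  { Ov.toSubring.toSubsemiring with
    algebraMap_mem' := fun r => algebraMap_mem_Ov M r }

theorem mem_ovSub (M : TwoChartModel R K F π t B0 B1 Ov) {x : F} : x ∈ ovSub M ↔ x ∈ Ov :=
  Iff.rfl

theorem sup_le_Ov (M : TwoChartModel R K F π t B0 B1 Ov) : ∀ x ∈ B0 ⊔ B1, x ∈ Ov := by
  have hle : B0 ⊔ B1 ≤ ovSub M :=
    sup_le (fun y hy => M.le_Ov0 y hy) (fun y hy => M.le_Ov1 y hy)
  exact fun x hx => hle hx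

theorem t_mem_Ov (M : TwoChartModel R K F π t B0 B1 Ov) : t ∈ Ov := M.le_Ov0 t M.t_mem

theorem sat01 (M : TwoChartModel R K F π t B0 B1 Ov) :
    ∀ b ∈ B0 ⊔ B1, ∀ c ∈ Ov, b = algebraMap R F π * c → c ∈ B0 ⊔ B1 := by
  intro b hb c hc hbc
  obtain ⟨k, hk⟩ := (mem_sup_iff0 M).1 hb
  rw [mem_sup_iff0 M]
  refine ⟨k, M.sat0 _ hk (t ^ k * c) (Ov.mul_mem _ _ (Ov.pow_mem (t_mem_Ov M) k) hc) ?_⟩
  rw [hbc]
  ring

/-! ### flatness -/

theorem isTorsionFree_field (M : TwoChartModel R K F π t B0 B1 Ov) :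
    Module.IsTorsionFree R F := by
  refine ⟨fun r hr x y hxy => ?_⟩
  have hr0 : r ≠ 0 := by
    haveI := isDomain M
    exact hr.ne_zero
  have hrF : algebraMap R F r ≠ 0 := fun h => hr0 (algebraMap_injective M (by rw [h, map_zero]))
  simp only [Algebra.smul_def] at hxy
  exact mul_left_cancel₀ hrF hxy

theorem flat_subalgebra (M : TwoChartModel R K F π t B0 B1 Ov) (B : Subalgebra R F) :
    Module.Flat R ↥B := by
  haveI := isDomain M
  haveI := isPrincipalIdealRing M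
  haveI := isTorsionFree_field M
  haveI : Module.IsTorsionFree R ↥B :=
    Function.Injective.moduleIsTorsionFree (fun x : ↥B => (x : F)) Subtype.val_injective
      (fun _ _ => rfl)
  infer_instance

theorem flat_submodule (M : TwoChartModel R K F π t B0 B1 Ov) (N : Submodule R F) :
    Module.Flat R ↥N := by
  haveI := isDomain M
  haveI := isPrincipalIdealRing M
  haveI := isTorsionFree_field M
  haveI : Module.IsTorsionFree R ↥N :=
    Function.Injective.moduleIsTorsionFree (fun x : ↥N => (x : F)) Subtype.val_injective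
      (fun _ _ => rfl)
  infer_instance

/-! ### restriction maps and localisation -/

/-- restriction `B0 → B01`. -/
abbrev ρ0 (B0 B1 : Subalgebra R F) : ↥B0 →ₐ[R] ↥(B0 ⊔ B1) := Subalgebra.inclusion le_sup_left

/-- restriction `B1 → B01`. -/
abbrev ρ1 (B0 B1 : Subalgebra R F) : ↥B1 →ₐ[R] ↥(B0 ⊔ B1) := Subalgebra.inclusion le_sup_right

@[simp] theorem coe_ρ0 (x : ↥B0) : ((ρ0 B0 B1 x : ↥(B0 ⊔ B1)) : F) = x := rfl
@[simp] theorem coe_ρ1 (x : ↥B1) : ((ρ1 B0 B1 x : ↥(B0 ⊔ B1)) : F) = x := rfl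

/-- abstract form: `B ≤ B'` subalgebras of a field, `s ∈ B` invertible in `B'` and
`B' = ⋃ s⁻ᵏ B`; then `B'` is the localisation of `B` away from `s`. -/
theorem away_of_le {B B' : Subalgebra R F} (hle : B ≤ B') {s : F} (hs : s ∈ B) (hs0 : s ≠ 0)
    (hinv : s⁻¹ ∈ B') (hB' : ∀ x ∈ B', ∃ k : ℕ, s ^ k * x ∈ B) :
    @IsLocalization.Away ↥B _ ⟨s, hs⟩ ↥B' _ (Subalgebra.inclusion hle).toRingHom.toAlgebra := by
  letI : Algebra ↥B ↥B' := (Subalgebra.inclusion hle).toRingHom.toAlgebra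
  have halg : ∀ x : ↥B, ((algebraMap ↥B ↥B' x : ↥B') : F) = x := fun _ => rfl
  show IsLocalization (Submonoid.powers (⟨s, hs⟩ : ↥B)) ↥B'
  rw [isLocalization_iff]
  refine ⟨?_, ?_, ?_⟩
  · rintro ⟨_, k, rfl⟩
    refine IsUnit.of_mul_eq_one (⟨s⁻¹ ^ k, B'.pow_mem hinv k⟩ : ↥B') ?_
    apply Subtype.ext
    show s ^ k * s⁻¹ ^ k = 1
    rw [← mul_pow, mul_inv_cancel₀ hs0, one_pow]
  · intro z
    obtain ⟨k, hk⟩ := hB' z z.2
    refine ⟨(⟨s ^ k * z, hk⟩, ⟨⟨s, hs⟩ ^ k, k, rfl⟩), ?_⟩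
    apply Subtype.ext
    show (z : F) * s ^ k = s ^ k * z
    ring
  · intro x y hxy
    refine ⟨1, ?_⟩
    have : (x : F) = y := by
      rw [← halg x, ← halg y, hxy]
    simp [Subtype.ext this]

theorem away0 (M : TwoChartModel R K F π t B0 B1 Ov) :
    @IsLocalization.Away ↥B0 _ ⟨t, M.t_mem⟩ ↥(B0 ⊔ B1) _ (ρ0 B0 B1).toRingHom.toAlgebra :=
  away_of_le le_sup_left M.t_mem M.t_ne ((le_sup_right : B1 ≤ B0 ⊔ B1) M.tinv_mem)
    (fun _ hx => (mem_sup_iff0 M).1 hx)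

theorem away1 (M : TwoChartModel R K F π t B0 B1 Ov) :
    @IsLocalization.Away ↥B1 _ ⟨t⁻¹, M.tinv_mem⟩ ↥(B0 ⊔ B1) _ (ρ1 B0 B1).toRingHom.toAlgebra :=
  away_of_le le_sup_right M.tinv_mem (inv_ne_zero M.t_ne)
    (by rw [inv_inv]; exact (le_sup_left : B0 ≤ B0 ⊔ B1) M.t_mem)
    (fun _ hx => (mem_sup_iff1 M).1 hx)

/-! ### (b) `H⁰` -/

/-- **(b)** `B0 ∩ B1 = R` when `K` is algebraically closed in `F`. -/
theorem h0 (M : TwoChartModel R K F π t B0 B1 Ov)
    (hKF : ∀ y : F, IsAlgebraic K y → ∃ c : K, algebraMap K F c = y) {x : F}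
    (hx0 : x ∈ B0) (hx1 : x ∈ B1) : ∃ r : R, algebraMap R F r = x := by
  obtain ⟨c, hc⟩ := Fermat.Agent.RED.CORE.Constants18.exists_algebraMap_eq_of_isIntegral_both
    (R₀ := R) hKF t x (M.int0 x hx0) (M.int1 x hx1)
  obtain ⟨r, hr⟩ := exists_of_mem_Ov M c (by rw [hc]; exact M.le_Ov0 x hx0)
  exact ⟨r, by rw [IsScalarTower.algebraMap_apply R K F, hr, hc]⟩

theorem cech_flat01 (M : TwoChartModel R K F π t B0 B1 Ov) : Module.Flat R ↥(B0 ⊔ B1) :=
  flat_subalgebra M _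

theorem cech_inj (M : TwoChartModel R K F π t B0 B1 Ov) :
    ∀ w : R, algebraMap R ↥B0 w = 0 → algebraMap R ↥B1 w = 0 → w = 0 := by
  intro w hw _
  apply algebraMap_injective M
  rw [map_zero]
  exact congrArg (fun x : ↥B0 => (x : F)) hw

theorem cech_h0 (M : TwoChartModel R K F π t B0 B1 Ov)
    (hKF : ∀ y : F, IsAlgebraic K y → ∃ c : K, algebraMap K F c = y) :
    ∀ (x0 : ↥B0) (x1 : ↥B1), ρ0 B0 B1 x0 = ρ1 B0 B1 x1 →
      ∃ w : R, algebraMap R ↥B0 w = x0 ∧ algebraMap R ↥B1 w = x1 := by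
  intro x0 x1 h
  have h01 : (x0 : F) = x1 := congrArg (fun x : ↥(B0 ⊔ B1) => (x : F)) h
  obtain ⟨r, hr⟩ := h0 M hKF x0.2 (by rw [h01]; exact x1.2)
  exact ⟨r, Subtype.ext hr, Subtype.ext (by rw [← h01]; exact hr)⟩

end Fermat.Agent.T1.ModelCoh30
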