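/-
T1A (S19) brick G1 MODEL-COH (helper30), file 2: slice (d), `H⁰` of the special fibre.

If `x0 ∈ B0`, `x1 ∈ B1` and `x0 + x1 ∈ π B01` then there is a constant `r ∈ R` with
`x0 - r ∈ π B0` and `x1 + r ∈ π B1`, provided `κ = R/π` is algebraically closed in the residue
field `Ov/π` (`ResAlgClosed`, elementwise).

Proof: in the residue field `kv` of `Ov` the class of `x0` is integral over `κ[t̄]` and over
`κ[t̄⁻¹]`, hence integral over (the image of) `R` by the valuative criterion
(`isIntegralElem_of_both`, Stacks 090P as in `RED.CORE.Constants18`, without a field of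
constants); `ResAlgClosed` makes it a constant, and `sat0`, `sat1` bring us back to the charts.
-/
import Mathlib
import Fermat.Agent.T1.ModelCoh30.Basic

set_option autoImplicit false
set_option linter.unusedSectionVars false
set_option linter.style.haveILetI false

namespace Fermat.Agent.T1.ModelCoh30

open Polynomial Fermat.Agent.RED.CORE.CoreIface24

/-! ### generalities on `RingHom.IsIntegralElem` -/

section General

/-- integrality along `g` lifts along a surjection `f`. -/
theorem isIntegralElem_comp_of_surjective {A B C : Type*} [CommRing A] [CommRing B] [CommRing C]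
    (f : A →+* B) (hf : Function.Surjective f) (g : B →+* C) {x : C}
    (hx : g.IsIntegralElem x) : (g.comp f).IsIntegralElem x := by
  obtain ⟨p, hp, hpx⟩ := hx
  have hl : p ∈ lifts f := by
    rw [lifts_iff_coeff_lifts]
    exact fun n => hf _
  obtain ⟨q, hq, -, hqm⟩ := lifts_and_natDegree_eq_and_monic hl hp
  refine ⟨q, hqm, ?_⟩
  rw [← eval₂_map, hq]
  exact hpx

/-- `x` integral over `A[t]` gives a polynomial in `A[X][Y]`, monic in `Y`, killing `(t, x)`. -/
theorem isIntegralElem_eval₂_of_isIntegral_adjoin {A S : Type*} [CommRing A] [CommRing S]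
    [Algebra A S] {t x : S} (h : IsIntegral ↥(Algebra.adjoin A {t}) x) :
    (eval₂RingHom (algebraMap A S) t).IsIntegralElem x := by
  have hmem : ∀ p : A[X], aeval t p ∈ Algebra.adjoin A {t} := fun p => by
    rw [Algebra.adjoin_singleton_eq_range_aeval]
    exact ⟨p, rfl⟩
  let f : A[X] →+* ↥(Algebra.adjoin A {t}) :=
    ((aeval t : A[X] →ₐ[A] S).codRestrict (Algebra.adjoin A {t}) hmem : A[X] →+* _)
  have hf : Function.Surjective f := by
    rintro ⟨y, hy⟩
    rw [Algebra.adjoin_singleton_eq_range_aeval] at hy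
    obtain ⟨p, hp⟩ := hy
    exact ⟨p, Subtype.ext hp⟩
  have h' := isIntegralElem_comp_of_surjective f hf (algebraMap ↥(Algebra.adjoin A {t}) S) h
  have hcomp : (algebraMap ↥(Algebra.adjoin A {t}) S).comp f = eval₂RingHom (algebraMap A S) t := by
    apply Polynomial.ringHom_ext
    · intro a
      show aeval t (C a) = eval₂ (algebraMap A S) t (C a)
      rw [aeval_def]
    · show aeval t (X : A[X]) = eval₂ (algebraMap A S) t X
      rw [aeval_def]
  rw [hcomp] at h'
  exact h'

/-- All values `p(τ)` lie in a subring containing the constants and `τ`. -/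
theorem eval₂_mem_subring {A k : Type*} [CommRing A] [CommRing k] (ψ : A →+* k) (τ : k)
    (V : Subring k) (hψ : ∀ a, ψ a ∈ V) (hτ : τ ∈ V) (p : A[X]) : eval₂ ψ τ p ∈ V := by
  rw [eval₂_eq_sum_range]
  exact Subring.sum_mem _ fun i _ => V.mul_mem (hψ _) (V.pow_mem hτ i)

/-- **Valuative criterion for constants over a ring**: `x` in a field `k`, integral over `A[τ]` and
over `A[τ⁻¹]`, is integral over `A`. -/
theorem isIntegralElem_of_both {A k : Type*} [CommRing A] [Field k] (ψ : A →+* k) (τ x : k)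
    (h0 : (eval₂RingHom ψ τ).IsIntegralElem x) (h1 : (eval₂RingHom ψ τ⁻¹).IsIntegralElem x) :
    ψ.IsIntegralElem x := by
  letI : Algebra A k := ψ.toAlgebra
  by_contra hx
  have hxR : x ∉ (integralClosure A k).toSubring := fun hmem => hx hmem
  obtain ⟨V, hV, hxV⟩ := Subring.exists_le_valuationSubring_of_isIntegrallyClosedIn hxR
  have hψV : ∀ a, ψ a ∈ V.toSubring := fun a =>
    hV ((integralClosure A k).algebraMap_mem a)
  -- an element integral over `A[σ]` with `σ ∈ V` lies in `V`
  have key : ∀ σ : k, σ ∈ V → (eval₂RingHom ψ σ).IsIntegralElem x → x ∈ V := by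
    intro σ hσ hint
    let θ : A[X] →+* ↥V.toSubring :=
      (eval₂RingHom ψ σ).codRestrict V.toSubring
        (fun p => eval₂_mem_subring ψ σ V.toSubring hψV hσ p)
    have hcomp : V.toSubring.subtype.comp θ = eval₂RingHom ψ σ := by
      ext <;> rfl
    rw [← hcomp] at hint
    have h2 : V.toSubring.subtype.IsIntegralElem x := RingHom.IsIntegralElem.of_comp hint
    have h3 : IsIntegral ↥V x := h2
    obtain ⟨y, hy⟩ := IsIntegrallyClosed.isIntegral_iff.mp h3
    rw [← hy]
    exact y.2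
  rcases V.mem_or_inv_mem τ with hτ | hτ
  · exact hxV (key τ hτ h0)
  · exact hxV (key τ⁻¹ hτ h1)

/-- The same in `IsIntegral` form (`RED.CORE.Constants18.isAlgebraic_of_isIntegral_both` without a
field of constants). -/
theorem isIntegral_of_isIntegral_both {A k : Type*} [CommRing A] [Field k] [Algebra A k]
    (t x : k) (h0 : IsIntegral ↥(Algebra.adjoin A {t}) x)
    (h1 : IsIntegral ↥(Algebra.adjoin A {t⁻¹}) x) : IsIntegral A x :=
  isIntegralElem_of_both (algebraMap A k) t x (isIntegralElem_eval₂_of_isIntegral_adjoin h0)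
    (isIntegralElem_eval₂_of_isIntegral_adjoin h1)

end General

variable {R K F : Type*} [CommRing R] [Field K] [Field F] [Algebra R K] [Algebra K F]
  [Algebra R F] [IsScalarTower R K F]
variable {π : R} {t : F} {B0 B1 : Subalgebra R F} {Ov : ValuationSubring F}

/-- `κ = R/π` is algebraically closed in the residue field `Ov/π` (elementwise form): an element of
`Ov` which satisfies modulo `π` a polynomial over `R` that is nonzero modulo `π` is congruent to
a constant modulo `π`. -/
def ResAlgClosed (π : R) (Ov : ValuationSubring F) : Prop :=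
  ∀ x ∈ Ov, ∀ p : R[X], (∃ i, ¬ π ∣ p.coeff i) →
    (∃ c ∈ Ov, aeval x p = algebraMap R F π * c) →
    ∃ r : R, ∃ c ∈ Ov, x - algebraMap R F r = algebraMap R F π * c

/-- `R → Ov`. -/
def toOv (M : TwoChartModel R K F π t B0 B1 Ov) : R →+* ↥Ov where
  toFun r := ⟨algebraMap R F r, algebraMap_mem_Ov M r⟩
  map_one' := Subtype.ext (map_one _)
  map_mul' _ _ := Subtype.ext (map_mul _ _ _)
  map_zero' := Subtype.ext (map_zero _)
  map_add' _ _ := Subtype.ext (map_add _ _ _)

@[simp] theorem coe_toOv (M : TwoChartModel R K F π t B0 B1 Ov) (r : R) :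
    ((toOv M r : ↥Ov) : F) = algebraMap R F r := rfl

theorem subtype_comp_toOv (M : TwoChartModel R K F π t B0 B1 Ov) :
    Ov.subtype.comp (toOv M) = algebraMap R F := by
  ext r
  rfl

/-- evaluation in `Ov` and in `F` agree. -/
theorem coe_eval₂_toOv (M : TwoChartModel R K F π t B0 B1 Ov) (x : ↥Ov) (p : R[X]) :
    ((eval₂ (toOv M) x p : ↥Ov) : F) = aeval (x : F) p := by
  have := hom_eval₂ p (toOv M) Ov.subtype x
  rw [subtype_comp_toOv M] at this
  rw [aeval_def]
  exact this

/-- kernel of the residue map of `Ov` is `π Ov`. -/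
theorem residue_eq_zero_iff (M : TwoChartModel R K F π t B0 B1 Ov) (x : ↥Ov) :
    IsLocalRing.residue ↥Ov x = 0 ↔ ∃ c ∈ Ov, (x : F) = algebraMap R F π * c := by
  rw [IsLocalRing.residue_eq_zero_iff, IsLocalRing.mem_maximalIdeal, mem_nonunits_iff]
  constructor
  · intro hx
    by_cases hx0 : (x : F) = 0
    · exact ⟨0, Ov.zero_mem, by rw [hx0, mul_zero]⟩
    · apply M.unif _ x.2
      intro hinv
      apply hx
      refine IsUnit.of_mul_eq_one (⟨(x : F)⁻¹, hinv⟩ : ↥Ov) ?_
      apply Subtype.ext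
      show (x : F) * (x : F)⁻¹ = 1
      exact mul_inv_cancel₀ hx0
  · rintro ⟨c, hc, hxc⟩ ⟨u, hu⟩
    have h1 : (x : F) * ((u⁻¹ : (↥Ov)ˣ) : ↥Ov) = 1 := by
      have : x * ((u⁻¹ : (↥Ov)ˣ) : ↥Ov) = 1 := by rw [← hu, Units.mul_inv]
      exact congrArg (fun z : ↥Ov => (z : F)) this
    refine not_pi_mul_mem_Ov_eq_one M
      (Ov.mul_mem _ _ hc ((u⁻¹ : (↥Ov)ˣ) : ↥Ov).2) ?_
    rw [← mul_assoc, ← hxc]
    exact h1

/-- Concrete-side criterion for `ResAlgClosed`: a reduction map `red : Ov → L` into a field `L`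
(e.g. `κ((q))`), with kernel `π Ov`, such that the image of `R` is algebraically closed in `L`. -/
theorem resAlgClosed_of_red (M : TwoChartModel R K F π t B0 B1 Ov) {L : Type*} [Field L]
    (red : ↥Ov →+* L) (redR : R →+* L)
    (hred : ∀ (r : R) (h : algebraMap R F r ∈ Ov), red ⟨_, h⟩ = redR r)
    (hpi : redR π = 0)
    (hker : ∀ x : ↥Ov, red x = 0 → ∃ c ∈ Ov, (x : F) = algebraMap R F π * c)
    (hL : ∀ y : L, (∃ p : R[X], p.map redR ≠ 0 ∧ (p.map redR).eval y = 0) →
      ∃ r : R, redR r = y) :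
    ResAlgClosed π Ov := by
  intro x hx p hp hxp
  obtain ⟨i, hi⟩ := hp
  obtain ⟨c, hc, hpc⟩ := hxp
  have hcomp : red.comp (toOv M) = redR := by
    ext r
    exact hred r _
  -- the reduction of `x` is a root of the reduction of `p`
  have hroot : (p.map redR).eval (red ⟨x, hx⟩) = 0 := by
    rw [eval_map, ← hcomp, ← hom_eval₂]
    have h1 : eval₂ (toOv M) ⟨x, hx⟩ p = toOv M π * ⟨c, hc⟩ := by
      apply Subtype.ext
      rw [coe_eval₂_toOv]
      exact hpc
    rw [h1, map_mul]
    have : red (toOv M π) = redR π := hred π _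
    rw [this, hpi, zero_mul]
  have hne : p.map redR ≠ 0 := by
    intro h0
    apply hi
    have h1 : redR (p.coeff i) = 0 := by
      have := congrArg (fun q => q.coeff i) h0
      simpa [coeff_map] using this
    have h2 : red (toOv M (p.coeff i)) = 0 := by
      rw [← h1]
      exact hred _ _
    exact dvd_of_mem_pi_Ov M _ (hker _ h2)
  obtain ⟨r, hr⟩ := hL _ ⟨p, hne, hroot⟩
  have h3 : red (⟨x, hx⟩ - toOv M r) = 0 := by
    rw [map_sub, ← hr]
    have : red (toOv M r) = redR r := hred r _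
    rw [this, sub_self]
  obtain ⟨c', hc', h4⟩ := hker _ h3
  exact ⟨r, c', hc', h4⟩

/-! ### (d) `H⁰` of the special fibre -/

/-- the class of an element of `B0` in the residue field of `Ov` is integral over `R[t̄]`. -/
theorem residue_isIntegralElem (M : TwoChartModel R K F π t B0 B1 Ov) (s : ↥Ov) (x : ↥Ov)
    (h : IsIntegral ↥(Algebra.adjoin R {(s : F)}) (x : F)) :
    (eval₂RingHom ((IsLocalRing.residue ↥Ov).comp (toOv M))
      (IsLocalRing.residue ↥Ov s)).IsIntegralElem (IsLocalRing.residue ↥Ov x) := by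
  have h1 := isIntegralElem_eval₂_of_isIntegral_adjoin h
  have hcomp : Ov.subtype.comp (eval₂RingHom (toOv M) s) =
      eval₂RingHom (algebraMap R F) (s : F) := by
    apply Polynomial.ringHom_ext
    · intro a
      simp
    · simp
  have h2 : (eval₂RingHom (toOv M) s).IsIntegralElem x := by
    apply RingHom.IsIntegralElem.of_map (g := Ov.subtype) Subtype.val_injective
    rw [hcomp]
    exact h1
  have h3 := h2.map (IsLocalRing.residue ↥Ov)
  have hcomp2 : (IsLocalRing.residue ↥Ov).comp (eval₂RingHom (toOv M) s) =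
      eval₂RingHom ((IsLocalRing.residue ↥Ov).comp (toOv M)) (IsLocalRing.residue ↥Ov s) := by
    apply Polynomial.ringHom_ext
    · intro a
      simp
    · simp
  rw [hcomp2] at h3
  exact h3

/-- **(d) special fibre `H⁰`**. -/
theorem h0_special (M : TwoChartModel R K F π t B0 B1 Ov) (hκ : ResAlgClosed π Ov)
    {x0 x1 y : F} (hx0 : x0 ∈ B0) (hx1 : x1 ∈ B1) (hy : y ∈ B0 ⊔ B1)
    (h : x0 + x1 = algebraMap R F π * y) :
    ∃ r : R, (∃ z0 ∈ B0, x0 - algebraMap R F r = algebraMap R F π * z0) ∧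
      (∃ z1 ∈ B1, x1 + algebraMap R F r = algebraMap R F π * z1) := by
  set res := IsLocalRing.residue ↥Ov with hres
  have hyO : y ∈ Ov := sup_le_Ov M y hy
  let x0' : ↥Ov := ⟨x0, M.le_Ov0 x0 hx0⟩
  let x1' : ↥Ov := ⟨x1, M.le_Ov1 x1 hx1⟩
  let t' : ↥Ov := ⟨t, t_mem_Ov M⟩
  let s' : ↥Ov := ⟨t⁻¹, M.tinv_mem_Ov⟩
  -- relations in the residue field
  have hsum : res x1' = - res x0' := by
    have : res (x0' + x1') = 0 := by
      rw [hres, residue_eq_zero_iff M]
      exact ⟨y, hyO, h⟩
    rw [map_add] at this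
    exact eq_neg_of_add_eq_zero_right this
  have hts : res s' = (res t')⁻¹ := by
    have : res t' * res s' = 1 := by
      rw [← map_mul]
      have : t' * s' = 1 := Subtype.ext (mul_inv_cancel₀ M.t_ne)
      rw [this, map_one]
    exact eq_inv_of_mul_eq_one_right this
  -- integrality
  have hint0 := residue_isIntegralElem M t' x0' (M.int0 x0 hx0)
  have hint1 := residue_isIntegralElem M s' x1' (M.int1 x1 hx1)
  rw [← hres, hsum, hts] at hint1
  rw [← hres] at hint0
  have hint1' := hint1.of_neg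
  obtain ⟨p, hpm, hp⟩ := isIntegralElem_of_both _ _ _ hint0 hint1'
  -- back to `Ov`
  have hp' : res (eval₂ (toOv M) x0' p) = 0 := by
    rw [hom_eval₂]
    exact hp
  rw [hres, residue_eq_zero_iff M, coe_eval₂_toOv] at hp'
  have hcoeff : ∃ i, ¬ π ∣ p.coeff i := by
    refine ⟨p.natDegree, ?_⟩
    rw [hpm.coeff_natDegree]
    intro hdvd
    exact pi_not_isUnit M (isUnit_of_dvd_one hdvd)
  obtain ⟨r, c, hc, hrc⟩ := hκ x0 (M.le_Ov0 x0 hx0) p hcoeff hp'
  refine ⟨r, ⟨c, ?_, hrc⟩, ⟨y - c, ?_, ?_⟩⟩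
  · exact M.sat0 _ (B0.sub_mem hx0 (B0.algebraMap_mem r)) c hc hrc
  · refine M.sat1 _ (B1.add_mem hx1 (B1.algebraMap_mem r)) (y - c) (sub_mem hyO hc) ?_
    rw [mul_sub, ← h, ← hrc]
    ring
  · rw [mul_sub, ← h, ← hrc]
    ring

/-- `H¹ = B01/(B0+B1)` has no `π`-torsion. -/
theorem h1_pi_torsionFree (M : TwoChartModel R K F π t B0 B1 Ov) (hκ : ResAlgClosed π Ov)
    {y : F} (hy : y ∈ B0 ⊔ B1)
    (h : ∃ x0 ∈ B0, ∃ x1 ∈ B1, algebraMap R F π * y = x0 + x1) :
    ∃ x0 ∈ B0, ∃ x1 ∈ B1, y = x0 + x1 := by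
  obtain ⟨x0, hx0, x1, hx1, hxy⟩ := h
  obtain ⟨r, ⟨z0, hz0, h0⟩, ⟨z1, hz1, h1⟩⟩ := h0_special M hκ hx0 hx1 hy hxy.symm
  refine ⟨z0, hz0, z1, hz1, ?_⟩
  apply mul_left_cancel₀ M.pi_ne
  rw [hxy, mul_add, ← h0, ← h1]
  ring

end Fermat.Agent.T1.ModelCoh30
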