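/-
T1A (S19) brick G1 MODEL-COH (helper30), file 3: slice (c), `H¹ = B01/(B0+B1)` is a free
`R`-module of finite rank: finitely generated by `RED.CORE.CechConnected14.cech_h1_span`,
`π`-torsion-free by the special-fibre `H⁰` (`h1_pi_torsionFree`), hence free over the DVR `R`.
The output is elementwise (representatives `b i ∈ B01 ⊆ F`) and in the literal shape of the
fields of `CechFormal70.CechData R ↥B0 ↥B1 ↥(B0 ⊔ B1) g`.
-/
import Mathlib
import Fermat.Agent.RED.CORE.CechConnected14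
import Fermat.Agent.T1.ModelCoh30.Special

set_option autoImplicit false
set_option linter.unusedSectionVars false
set_option linter.style.haveILetI false

namespace Fermat.Agent.T1.ModelCoh30

open Polynomial Fermat.Agent.RED.CORE.CoreIface24

variable {R K F : Type*} [CommRing R] [Field K] [Field F] [Algebra R K] [Algebra K F]
  [Algebra R F] [IsScalarTower R K F]
variable {π : R} {t : F} {B0 B1 : Subalgebra R F} {Ov : ValuationSubring F}

/-- `B0 + B1` as a submodule of `F`. -/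
abbrev sumSub (B0 B1 : Subalgebra R F) : Submodule R F :=
  Subalgebra.toSubmodule B0 ⊔ Subalgebra.toSubmodule B1

theorem mem_sumSub {x : F} :
    x ∈ sumSub B0 B1 ↔ ∃ x0 ∈ B0, ∃ x1 ∈ B1, x0 + x1 = x := Submodule.mem_sup

/-- a uniform exponent `N` with `t⁻ᴺ e i ∈ B1`. -/
theorem exists_uniform_exponent (M : TwoChartModel R K F π t B0 B1 Ov) {r : ℕ} (e : Fin r → F)
    (he : ∀ i, e i ∈ B0) : ∃ N : ℕ, ∀ i, t⁻¹ ^ N * e i ∈ B1 := by
  choose k hk using fun i => M.ov1 (e i) (he i)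
  refine ⟨Finset.univ.sup k, fun i => ?_⟩
  have hle : k i ≤ Finset.univ.sup k := Finset.le_sup (Finset.mem_univ i)
  obtain ⟨d, hd⟩ := Nat.exists_eq_add_of_le hle
  rw [hd, pow_add, mul_comm (t⁻¹ ^ k i), mul_assoc]
  exact pow_mul_mem1 M (hk i) d

/-- **`H¹` is finitely generated.** -/
theorem h1_fg (M : TwoChartModel R K F π t B0 B1 Ov) :
    ∃ (n : ℕ) (e : Fin n → F), (∀ i, e i ∈ B0 ⊔ B1) ∧
      ∀ y ∈ B0 ⊔ B1, ∃ c : Fin n → R, ∃ x0 ∈ B0, ∃ x1 ∈ B1,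
        y = ∑ i, c i • e i + x0 + x1 := by
  obtain ⟨r, e, he, hgen⟩ := M.fin0
  obtain ⟨N, hN⟩ := exists_uniform_exponent M e he
  have hspan := Fermat.Agent.RED.CORE.CechConnected14.cech_h1_span t t⁻¹
    (mul_inv_cancel₀ M.t_ne) B0 B1 (B0 ⊔ B1) M.t_mem M.tinv_mem e he hgen
    (fun x hx => (mem_sup_iff0 M).1 hx) N hN
  let v : Fin r × Fin N → F := fun p => t⁻¹ ^ (p.2 : ℕ) * e p.1
  let e' : Fin (r * N) → F := fun j => v (finProdFinEquiv.symm j)
  have hv : ∀ p, v p ∈ B0 ⊔ B1 := fun p =>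
    (B0 ⊔ B1).mul_mem ((B0 ⊔ B1).pow_mem ((le_sup_right : B1 ≤ B0 ⊔ B1) M.tinv_mem) _)
      ((le_sup_left : B0 ≤ B0 ⊔ B1) (he p.1))
  refine ⟨r * N, e', fun j => hv _, fun y hy => ?_⟩
  have hy' : y ∈ Submodule.span R (Set.range v) ⊔ sumSub B0 B1 := hspan hy
  obtain ⟨g, hg, z, hz, hgz⟩ := Submodule.mem_sup.1 hy'
  obtain ⟨c, hc⟩ := (Submodule.mem_span_range_iff_exists_fun R).1 hg
  obtain ⟨x0, hx0, x1, hx1, hx⟩ := mem_sumSub.1 hz
  refine ⟨fun j => c (finProdFinEquiv.symm j), x0, hx0, x1, hx1, ?_⟩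
  have hsum : ∑ j : Fin (r * N), c (finProdFinEquiv.symm j) • e' j = g := by
    rw [← hc]
    exact Fintype.sum_equiv finProdFinEquiv.symm _ _ (fun _ => rfl)
  rw [hsum, add_assoc, hx, hgz]

section Quot

variable (B0 B1)

/-- the submodule `B0 + B1` inside the module `B01`. -/
abbrev bdry : Submodule R ↥(Subalgebra.toSubmodule (B0 ⊔ B1)) :=
  (sumSub B0 B1).comap (Subalgebra.toSubmodule (B0 ⊔ B1)).subtype

/-- `H¹ = B01 / (B0 + B1)`. -/
abbrev H1 : Type _ := ↥(Subalgebra.toSubmodule (B0 ⊔ B1)) ⧸ bdry B0 B1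

variable {B0 B1}

theorem mk_eq_zero_iff (y : ↥(Subalgebra.toSubmodule (B0 ⊔ B1))) :
    (Submodule.Quotient.mk y : H1 B0 B1) = 0 ↔ ∃ x0 ∈ B0, ∃ x1 ∈ B1, x0 + x1 = (y : F) := by
  rw [Submodule.Quotient.mk_eq_zero, Submodule.mem_comap]
  exact mem_sumSub

end Quot

theorem finite_H1 (M : TwoChartModel R K F π t B0 B1 Ov) : Module.Finite R (H1 B0 B1) := by
  obtain ⟨n, e, he, hgen⟩ := h1_fg M
  let e' : Fin n → ↥(Subalgebra.toSubmodule (B0 ⊔ B1)) := fun i => ⟨e i, he i⟩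
  let φ : (Fin n → R) →ₗ[R] H1 B0 B1 :=
    (Submodule.mkQ (bdry B0 B1)).comp (Fintype.linearCombination R e')
  refine Module.Finite.of_surjective φ ?_
  intro h
  obtain ⟨y, rfl⟩ := Submodule.Quotient.mk_surjective _ h
  obtain ⟨c, x0, hx0, x1, hx1, hy⟩ := hgen y y.2
  refine ⟨c, ?_⟩
  show Submodule.Quotient.mk (Fintype.linearCombination R e' c) = Submodule.Quotient.mk y
  rw [eq_comm, ← sub_eq_zero, ← Submodule.Quotient.mk_sub, mk_eq_zero_iff]
  refine ⟨x0, hx0, x1, hx1, ?_⟩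
  rw [Fintype.linearCombination_apply]
  simp only [Submodule.coe_sub, Submodule.coe_sum, Submodule.coe_smul, e']
  rw [hy]
  ring

theorem pi_smul_eq_zero_H1 (M : TwoChartModel R K F π t B0 B1 Ov) (hκ : ResAlgClosed π Ov)
    (h : H1 B0 B1) (hπ : π • h = 0) : h = 0 := by
  obtain ⟨y, rfl⟩ := Submodule.Quotient.mk_surjective _ h
  rw [← Submodule.Quotient.mk_smul, mk_eq_zero_iff] at hπ
  rw [mk_eq_zero_iff]
  obtain ⟨x0, hx0, x1, hx1, hx⟩ := hπ
  obtain ⟨z0, hz0, z1, hz1, hz⟩ := h1_pi_torsionFree M hκ y.2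
    ⟨x0, hx0, x1, hx1, by rw [hx, Submodule.coe_smul, Algebra.smul_def]⟩
  exact ⟨z0, hz0, z1, hz1, hz.symm⟩

theorem isTorsionFree_H1 (M : TwoChartModel R K F π t B0 B1 Ov) (hκ : ResAlgClosed π Ov) :
    Module.IsTorsionFree R (H1 B0 B1) := by
  haveI := isDomain M
  have hpow : ∀ (k : ℕ) (h : H1 B0 B1), π ^ k • h = 0 → h = 0 := by
    intro k
    induction k with
    | zero => intro h hh; simpa using hh
    | succ k ih =>
      intro h hh
      rw [pow_succ, mul_smul] at hh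
      exact pi_smul_eq_zero_H1 M hκ h (ih _ hh)
  refine ⟨fun r hr a b hab => ?_⟩
  have hr0 : r ≠ 0 := hr.ne_zero
  obtain ⟨k, v, rfl⟩ := M.dvrR r hr0
  have h1 : (π ^ k * (v : R)) • (a - b) = 0 := by
    rw [smul_sub]
    exact sub_eq_zero.2 hab
  rw [mul_smul] at h1
  have h2 := hpow k _ h1
  have h3 : a - b = 0 := by
    have := congrArg (fun z => ((v⁻¹ : Rˣ) : R) • z) h2
    simpa [smul_smul] using this
  exact sub_eq_zero.1 h3

/-- **G1 (c), elementwise**: representatives of a basis of `H¹ = B01/(B0+B1)`. -/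
theorem exists_h1_basis (M : TwoChartModel R K F π t B0 B1 Ov) (hκ : ResAlgClosed π Ov) :
    ∃ (g : ℕ) (b : Fin g → F), (∀ i, b i ∈ B0 ⊔ B1) ∧
      (∀ y ∈ B0 ⊔ B1, ∃ c : Fin g → R, ∃ x0 ∈ B0, ∃ x1 ∈ B1,
        y = ∑ i, c i • b i + x0 + x1) ∧
      (∀ c : Fin g → R, (∃ x0 ∈ B0, ∃ x1 ∈ B1, ∑ i, c i • b i + x0 + x1 = 0) →
        ∀ i, c i = 0) := by
  haveI := isDomain M
  haveI := isPrincipalIdealRing M
  haveI := finite_H1 M
  haveI := isTorsionFree_H1 M hκ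
  obtain ⟨g, β⟩ := (Module.basisOfFiniteTypeTorsionFree' : Σ n : ℕ, Module.Basis (Fin n) R (H1 B0 B1))
  choose b' hb' using fun i => Submodule.Quotient.mk_surjective (bdry B0 B1) (β i)
  have hmk : ∀ c : Fin g → R,
      (Submodule.Quotient.mk (∑ i, c i • b' i) : H1 B0 B1) = ∑ i, c i • β i := by
    intro c
    rw [← Submodule.mkQ_apply, map_sum]
    refine Finset.sum_congr rfl fun i _ => ?_
    rw [map_smul, Submodule.mkQ_apply, hb']
  have hcoe : ∀ c : Fin g → R,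
      ((∑ i, c i • b' i : ↥(Subalgebra.toSubmodule (B0 ⊔ B1))) : F) = ∑ i, c i • (b' i : F) := by
    intro c
    simp only [Submodule.coe_sum, Submodule.coe_smul]
  refine ⟨g, fun i => (b' i : F), fun i => (b' i).2, ?_, ?_⟩
  · intro y hy
    let y' : ↥(Subalgebra.toSubmodule (B0 ⊔ B1)) := ⟨y, hy⟩
    let c : Fin g → R := fun i => β.repr (Submodule.Quotient.mk y') i
    have h1 : (Submodule.Quotient.mk (y' - ∑ i, c i • b' i) : H1 B0 B1) = 0 := by
      rw [Submodule.Quotient.mk_sub, hmk, sub_eq_zero]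
      exact (β.sum_repr _).symm
    rw [mk_eq_zero_iff] at h1
    obtain ⟨x0, hx0, x1, hx1, hx⟩ := h1
    refine ⟨c, x0, hx0, x1, hx1, ?_⟩
    rw [Submodule.coe_sub, hcoe] at hx
    rw [add_assoc, hx]
    show y = _ + (y - _)
    ring
  · rintro c ⟨x0, hx0, x1, hx1, hsum⟩
    have h1 : (Submodule.Quotient.mk (∑ i, c i • b' i) : H1 B0 B1) = 0 := by
      rw [mk_eq_zero_iff, hcoe]
      refine ⟨-x0, B0.neg_mem hx0, -x1, B1.neg_mem hx1, ?_⟩
      linear_combination -hsum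
    rw [hmk] at h1
    exact Fintype.linearIndependent_iff.1 β.linearIndependent c h1

/-- **G1 (c)** in the literal shape of the `span`/`indep` fields of
`CechFormal70.CechData R ↥B0 ↥B1 ↥(B0 ⊔ B1) g`. -/
theorem exists_cech_basis (M : TwoChartModel R K F π t B0 B1 Ov) (hκ : ResAlgClosed π Ov) :
    ∃ (g : ℕ) (b : Fin g → ↥(B0 ⊔ B1)),
      (∀ y : ↥(B0 ⊔ B1), ∃ (c : Fin g → R) (x0 : ↥B0) (x1 : ↥B1),
        y = ∑ i, c i • b i + ρ0 B0 B1 x0 + ρ1 B0 B1 x1) ∧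
      (∀ (c : Fin g → R) (x0 : ↥B0) (x1 : ↥B1),
        ∑ i, c i • b i + ρ0 B0 B1 x0 + ρ1 B0 B1 x1 = 0 → ∀ i, c i = 0) := by
  obtain ⟨g, b, hb, hspan, hind⟩ := exists_h1_basis M hκ
  have hcoe : ∀ c : Fin g → R,
      ((∑ i, c i • (⟨b i, hb i⟩ : ↥(B0 ⊔ B1)) : ↥(B0 ⊔ B1)) : F) = ∑ i, c i • b i := by
    intro c
    rw [AddSubmonoidClass.coe_finsetSum]
    rfl
  refine ⟨g, fun i => ⟨b i, hb i⟩, ?_, ?_⟩
  · intro y
    obtain ⟨c, x0, hx0, x1, hx1, hy⟩ := hspan y y.2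
    refine ⟨c, ⟨x0, hx0⟩, ⟨x1, hx1⟩, Subtype.ext ?_⟩
    rw [Subalgebra.coe_add, Subalgebra.coe_add, hcoe]
    exact hy
  · intro c x0 x1 h
    apply hind c
    refine ⟨x0, x0.2, x1, x1.2, ?_⟩
    have := congrArg (fun z : ↥(B0 ⊔ B1) => (z : F)) h
    simp only [Subalgebra.coe_add, hcoe] at this
    exact this

end Fermat.Agent.T1.ModelCoh30
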