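/-
T1A (S19) brick G1 MODEL-COH (helper30), file 4: the `CechFormal70.CechData` of the two-chart model
(the hypothesis structure of G3 FORMAL), assembled from `Basic` (flatness, `H⁰`) and `H1`
(basis of `H¹`).
-/
import Mathlib
import Fermat.Agent.T1.CechFormal70.BaseChange
import Fermat.Agent.T1.ModelCoh30.H1

set_option autoImplicit false
set_option linter.unusedSectionVars false

namespace Fermat.Agent.T1.ModelCoh30

open Polynomial Fermat.Agent.RED.CORE.CoreIface24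

variable {R K F : Type*} [CommRing R] [Field K] [Field F] [Algebra R K] [Algebra K F]
  [Algebra R F] [IsScalarTower R K F]
variable {π : R} {t : F} {B0 B1 : Subalgebra R F} {Ov : ValuationSubring F}

/-- the rank of `H¹ = B01/(B0+B1)` over `R` (the genus of the generic fibre). -/
noncomputable def genus (M : TwoChartModel R K F π t B0 B1 Ov) (hκ : ResAlgClosed π Ov) : ℕ :=
  (exists_cech_basis M hκ).choose

/-- representatives in `B01` of an `R`-basis of `H¹`. -/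
noncomputable def h1Basis (M : TwoChartModel R K F π t B0 B1 Ov) (hκ : ResAlgClosed π Ov) :
    Fin (genus M hκ) → ↥(B0 ⊔ B1) :=
  (exists_cech_basis M hκ).choose_spec.choose

theorem h1Basis_span (M : TwoChartModel R K F π t B0 B1 Ov) (hκ : ResAlgClosed π Ov) :
    ∀ y : ↥(B0 ⊔ B1), ∃ (c : Fin (genus M hκ) → R) (x0 : ↥B0) (x1 : ↥B1),
      y = ∑ i, c i • h1Basis M hκ i + ρ0 B0 B1 x0 + ρ1 B0 B1 x1 :=
  (exists_cech_basis M hκ).choose_spec.choose_spec.1

theorem h1Basis_indep (M : TwoChartModel R K F π t B0 B1 Ov) (hκ : ResAlgClosed π Ov) :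
    ∀ (c : Fin (genus M hκ) → R) (x0 : ↥B0) (x1 : ↥B1),
      ∑ i, c i • h1Basis M hκ i + ρ0 B0 B1 x0 + ρ1 B0 B1 x1 = 0 → ∀ i, c i = 0 :=
  (exists_cech_basis M hκ).choose_spec.choose_spec.2

/-- **G1 output**: the Čech datum of the two-chart model, `W = R`, charts `↥B0`, `↥B1`, overlap
`↥(B0 ⊔ B1)`. Hypotheses: `K` algebraically closed in `F` and `κ` algebraically closed in the
residue field of `Ov`. -/
noncomputable def cechData (M : TwoChartModel R K F π t B0 B1 Ov)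
    (hKF : ∀ y : F, IsAlgebraic K y → ∃ c : K, algebraMap K F c = y) (hκ : ResAlgClosed π Ov) :
    CechFormal70.CechData R ↥B0 ↥B1 ↥(B0 ⊔ B1) (genus M hκ) where
  ρ0 := ρ0 B0 B1
  ρ1 := ρ1 B0 B1
  b := h1Basis M hκ
  flat01 := cech_flat01 M
  inj := cech_inj M
  h0 := cech_h0 M hKF
  span := h1Basis_span M hκ
  indep := h1Basis_indep M hκ

@[simp] theorem cechData_ρ0 (M : TwoChartModel R K F π t B0 B1 Ov)
    (hKF : ∀ y : F, IsAlgebraic K y → ∃ c : K, algebraMap K F c = y) (hκ : ResAlgClosed π Ov) :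
    (cechData M hKF hκ).ρ0 = ρ0 B0 B1 := rfl

@[simp] theorem cechData_ρ1 (M : TwoChartModel R K F π t B0 B1 Ov)
    (hKF : ∀ y : F, IsAlgebraic K y → ∃ c : K, algebraMap K F c = y) (hκ : ResAlgClosed π Ov) :
    (cechData M hKF hκ).ρ1 = ρ1 B0 B1 := rfl

@[simp] theorem cechData_b (M : TwoChartModel R K F π t B0 B1 Ov)
    (hKF : ∀ y : F, IsAlgebraic K y → ∃ c : K, algebraMap K F c = y) (hκ : ResAlgClosed π Ov) :
    (cechData M hKF hκ).b = h1Basis M hκ := rfl

/-- A Čech datum with ANY prescribed family of representatives `b` of a basis of `H¹`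
(e.g. the Galois-invariant basis of `InvBasis25`). -/
def cechDataOf (M : TwoChartModel R K F π t B0 B1 Ov)
    (hKF : ∀ y : F, IsAlgebraic K y → ∃ c : K, algebraMap K F c = y) {g : ℕ}
    (b : Fin g → ↥(B0 ⊔ B1))
    (hspan : ∀ y : ↥(B0 ⊔ B1), ∃ (c : Fin g → R) (x0 : ↥B0) (x1 : ↥B1),
      y = ∑ i, c i • b i + ρ0 B0 B1 x0 + ρ1 B0 B1 x1)
    (hind : ∀ (c : Fin g → R) (x0 : ↥B0) (x1 : ↥B1),
      ∑ i, c i • b i + ρ0 B0 B1 x0 + ρ1 B0 B1 x1 = 0 → ∀ i, c i = 0) :
    CechFormal70.CechData R ↥B0 ↥B1 ↥(B0 ⊔ B1) g where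
  ρ0 := ρ0 B0 B1
  ρ1 := ρ1 B0 B1
  b := b
  flat01 := cech_flat01 M
  inj := cech_inj M
  h0 := cech_h0 M hKF
  span := hspan
  indep := hind

end Fermat.Agent.T1.ModelCoh30
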