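/-
T1A (S19) brick G1 MODEL-COH (helper30), file 5: the hypothesis `ResAlgClosed π Ov` holds for every
two-chart model whose valuation ring is a Gauss valuation ring `GaussGen8.gaussVS hπ E hE`
(`E ⊂ Frac O((q))`): the residue field of `Ov` embeds into `κ((q))` (`gaussVSRed`), and `κ` is
algebraically closed in `κ((q))`.
-/
import Mathlib
import Fermat.Agent.RED.NumInst4
import Fermat.Agent.RED.BASE.TBridge15
import Fermat.Agent.T1.ModelCoh30.Special

set_option autoImplicit false
set_option linter.unusedSectionVars false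

noncomputable section

namespace Fermat.Agent.T1.ModelCoh30

open Polynomial HahnSeries Fermat.Agent.RED.CORE.CoreIface24 Fermat.Agent.RED.PUR.GaussGen8

/-! ### the constants are algebraically closed in `κ((q))` -/

section Const

variable {κ : Type*} [Field κ]

/-- A Laurent series over a field `κ` which is algebraic over `κ` is a constant. -/
theorem exists_C_eq_of_isAlgebraic {y : LaurentSeries κ} (hy : IsAlgebraic κ y) :
    ∃ c : κ, (HahnSeries.C c : LaurentSeries κ) = y := by
  obtain ⟨Y, hY⟩ := Fermat.Agent.RED.BASE.TBridge15.exists_ofPowerSeries_eq_of_isAlgebraic hy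
  refine ⟨PowerSeries.constantCoeff Y, ?_⟩
  by_contra hne
  set c : κ := PowerSeries.constantCoeff Y with hc
  set z : LaurentSeries κ := y - HahnSeries.C c with hz
  have hz0 : z ≠ 0 := fun h => hne (sub_eq_zero.1 h).symm
  have hzalg : IsAlgebraic κ z := by
    have hC : IsAlgebraic κ (HahnSeries.C c : LaurentSeries κ) := by
      rw [← algebraMap_eq_C]
      exact isAlgebraic_algebraMap c
    exact hy.sub hC
  obtain ⟨Z, hZ⟩ :=
    Fermat.Agent.RED.BASE.TBridge15.exists_ofPowerSeries_eq_of_isAlgebraic hzalg.inv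
  have hzY : z = HahnSeries.ofPowerSeries ℤ κ (Y - PowerSeries.C c) := by
    rw [hz, map_sub, hY, HahnSeries.ofPowerSeries_C]
  have hprod : HahnSeries.ofPowerSeries ℤ κ ((Y - PowerSeries.C c) * Z) =
      HahnSeries.ofPowerSeries ℤ κ 1 := by
    rw [map_mul, ← hzY, hZ, map_one, mul_inv_cancel₀ hz0]
  have h1 := HahnSeries.ofPowerSeries_injective hprod
  have h2 := congrArg PowerSeries.constantCoeff h1
  rw [map_mul, map_sub, PowerSeries.constantCoeff_C, ← hc, sub_self, zero_mul, map_one] at h2
  exact zero_ne_one h2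

/-- root form: a root of a nonzero polynomial with constant coefficients is a constant. -/
theorem exists_C_eq_of_root {y : LaurentSeries κ} {q : κ[X]} (hq : q ≠ 0)
    (hroot : (q.map (HahnSeries.C : κ →+* LaurentSeries κ)).eval y = 0) :
    ∃ c : κ, (HahnSeries.C c : LaurentSeries κ) = y := by
  apply exists_C_eq_of_isAlgebraic
  refine ⟨q, hq, ?_⟩
  rw [aeval_def, ← eval_map]
  have : algebraMap κ (LaurentSeries κ) = (HahnSeries.C : κ →+* LaurentSeries κ) := by
    ext1 c
    exact algebraMap_eq_C c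
  rw [this]
  exact hroot

end Const

/-! ### the Gauss valuation ring -/

variable {Kt : Type*} [Field Kt] {O : ValuationSubring Kt}
  {E : IntermediateField Kt (LaurentSeries Kt)}

/-- **`ResAlgClosed` for Gauss valuation rings.** -/
theorem resAlgClosed_gaussVS {π : O} (hπ : IsUnif O π) (hE : E ≤ fracField O) {t : E}
    {B0 B1 : Subalgebra ↥O ↥E}
    (M : TwoChartModel ↥O Kt ↥E π t B0 B1 (gaussVS hπ E hE)) :
    ResAlgClosed π (gaussVS hπ E hE) := by
  have hcoe : ∀ a : O, ((algebraMap ↥O ↥E a : E) : LaurentSeries Kt) = HahnSeries.C ((a : O) : Kt) :=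
    Fermat.Agent.RED.NumInst4.coe_algebraMap_OE O E
  refine resAlgClosed_of_red M (gaussVSRed hπ E hE)
    ((HahnSeries.C : Res O →+* LaurentSeries (Res O)).comp (res0 O)) ?_ ?_ ?_ ?_
  · -- `hred`
    intro r h
    rw [gaussVSRed_apply]
    have : (⟨((⟨algebraMap ↥O ↥E r, h⟩ : gaussVS hπ E hE) : E),
        (mem_gaussVS_iff hπ E hE _).mp h⟩ : gaussRing O) = constG O r :=
      Subtype.ext (hcoe r)
    rw [this, gaussRed_constG]
    rfl
  · -- `hpi`
    show HahnSeries.C (res0 O π) = 0
    rw [res0_unif hπ, map_zero]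
  · -- `hker`
    intro x hx
    rw [gaussVSRed_apply, gaussRed_eq_zero_iff hπ] at hx
    obtain ⟨g, hg⟩ := hx
    have hg' : ((x : E) : LaurentSeries Kt) = piK π * (g : LaurentSeries Kt) :=
      congrArg (fun f : gaussRing O => (f : LaurentSeries Kt)) hg
    have hπE : (algebraMap ↥O ↥E π : E) ≠ 0 := M.pi_ne
    refine ⟨(x : E) * (algebraMap ↥O ↥E π)⁻¹, ?_, ?_⟩
    · rw [mem_gaussVS_iff]
      have : (((x : E) * (algebraMap ↥O ↥E π)⁻¹ : E) : LaurentSeries Kt) = g := by
        push_cast
        rw [hcoe, hg', mul_comm (piK π), mul_assoc, mul_inv_cancel₀ (piK_ne_zero hπ), mul_one]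
      rw [this]
      exact g.2
    · rw [mul_comm (x : E), ← mul_assoc, mul_inv_cancel₀ hπE, one_mul]
  · -- `hL`
    rintro y ⟨p, hp0, hroot⟩
    have hmap : p.map ((HahnSeries.C : Res O →+* LaurentSeries (Res O)).comp (res0 O)) =
        (p.map (res0 O)).map (HahnSeries.C : Res O →+* LaurentSeries (Res O)) := by
      rw [Polynomial.map_map]
    rw [hmap] at hp0 hroot
    have hq : p.map (res0 O) ≠ 0 := by
      intro h
      apply hp0
      rw [h, Polynomial.map_zero]
    obtain ⟨c, hc⟩ := exists_C_eq_of_root hq hroot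
    obtain ⟨r, rfl⟩ := IsLocalRing.residue_surjective c
    exact ⟨r, hc⟩

end Fermat.Agent.T1.ModelCoh30
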