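/-
T1A G1 MODEL-COH (helper30): compatibility check requested by the T1A lead (G9-H5 HUB-RED).

The Čech datum `ModelCoh30.cechData M hKF hκ` and helper60's two-chart hub
`Coh60.modelChart M` (algebra instances `Coh60.algebra0/algebra1`) fit together DEFINITIONALLY:
the compatibility hypotheses `hρ0`, `hρ1` of `CoordInj23.coordInjective_of_cechData` are `rfl`.
`hub_coordInjective` is the exact call for a model over a Gauss valuation ring.
-/
import Mathlib
import Fermat.Agent.T1.Coh60.ModelLine
import Fermat.Agent.T1.CoordInj23.OfCechData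
import Fermat.Agent.T1.ModelCoh30.GaussRes
import Fermat.Agent.T1.ModelCoh30.Cech

set_option autoImplicit false
set_option linter.unusedSectionVars false

universe u

namespace Fermat.Agent.T1.ModelCoh30

open Fermat.Agent.RED.CORE.CoreIface24 Fermat.Agent.Jac Fermat.Agent.T1.Coh60
  Fermat.Agent.T1.RedIface75 Fermat.Agent.T1.CoordInj23

section Abstract

variable {R K F : Type u} [CommRing R] [Field K] [Field F] [Algebra R K] [Algebra K F]
  [Algebra R F] [IsScalarTower R K F]
variable {π : R} {t : F} {B0 B1 : Subalgebra R F} {Ov : ValuationSubring F}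

/-- `cechData`'s restriction maps are the algebra maps of the hub `Coh60.modelChart M`: `rfl`. -/
theorem cechData_ρ0_eq_algebraMap (M : TwoChartModel R K F π t B0 B1 Ov)
    (hKF : ∀ y : F, IsAlgebraic K y → ∃ c : K, algebraMap K F c = y) (hκ : ResAlgClosed π Ov)
    (x : ↥B0) :
    (cechData M hKF hκ).ρ0 x = @algebraMap ↥B0 ↥(B0 ⊔ B1) _ _ (algebra0 B0 B1) x := rfl

theorem cechData_ρ1_eq_algebraMap (M : TwoChartModel R K F π t B0 B1 Ov)
    (hKF : ∀ y : F, IsAlgebraic K y → ∃ c : K, algebraMap K F c = y) (hκ : ResAlgClosed π Ov)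
    (x : ↥B1) :
    (cechData M hKF hκ).ρ1 x = @algebraMap ↥B1 ↥(B0 ⊔ B1) _ _ (algebra1 B0 B1) x := rfl

/-- The exact call: `CoordInjective` at the hub from G1's two outputs. -/
theorem hub_coordInjective (M : TwoChartModel R K F π t B0 B1 Ov)
    (hKF : ∀ y : F, IsAlgebraic K y → ∃ c : K, algebraMap K F c = y) (hκ : ResAlgClosed π Ov)
    (hfp : @TwoChart.FiniteProjOverLine R ↥B0 ↥B1 ↥(B0 ⊔ B1) _ _ _ _ _ _ _ (algebra0 B0 B1)
      (algebra1 B0 B1) (isScalarTower0 B0 B1) (isScalarTower1 B0 B1) (modelChart M))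
    (O : Type u) [CommRing O] [IsDomain O] [IsDiscreteValuationRing O] [Algebra R O] :
    @CoordInjective R ↥B0 ↥B1 ↥(B0 ⊔ B1) _ _ _ _ _ _ _ (algebra0 B0 B1)
      (algebra1 B0 B1) (isScalarTower0 B0 B1) (isScalarTower1 B0 B1) (modelChart M) O _ _ _ _ :=
  letI := algebra0 B0 B1
  letI := algebra1 B0 B1
  haveI := isScalarTower0 B0 B1
  haveI := isScalarTower1 B0 B1
  coordInjective_of_cechData (modelChart M) hfp (cechData M hKF hκ)
    (fun _ => rfl) (fun _ => rfl) O

end Abstract

end Fermat.Agent.T1.ModelCoh30
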